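import Fermat.Agent.Mazur.Descent.Local
import Fermat.Agent.EigenRep.Main
import Fermat.Agent.SemistableRed.AllFacts
import Fermat.Agent.SemistableRed.GaloisCompat
import Fermat.Agent.TameInertia.Qbar
import Fermat.Agent.TameInertia.Frobenius
import Fermat.Agent.GalCoh.Descent.Mu
import Fermat.Agent.Frobenius.Exists

/-!
# The tame side at the level

Galois acts on a finite part of the torsion as Frobenius elements away from the level, so it
satisfies quadratic Hecke relations there. At the prime level `N` inertia is unipotent on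
torsion, hence tame on `y` and the `e ^ k`-torsion when `e ^ k y` is rational.
-/

set_option autoImplicit false

noncomputable section

namespace Fermat.Agent.Mazur

open ModularCurve AlgebraicCurve Fermat.Agent.EigenRep

local notation "Ω" => AlgebraicClosure ℚ
local notation "G_Q" => (AlgebraicClosure ℚ) ≃ₐ[ℚ] (AlgebraicClosure ℚ)

variable (N e : ℕ) [NeZero N] [Fact e.Prime]

theorem gal_nsmul {N : ℕ} (g : G_Q) (n : ℕ) (x : JZero N) : n • g • x = g • n • x :=
  ((DistribSMul.toAddMonoidHom (JZero N) g).map_nsmul n x).symm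

theorem gal_zero {N : ℕ} (g : G_Q) : g • (0 : JZero N) = 0 :=
  (DistribSMul.toAddMonoidHom (JZero N) g).map_zero

theorem finite_tors (k : ℕ) : {x : JZero N | e ^ k • x = 0}.Finite := by
  have : NeZero (e ^ k) := ⟨pow_ne_zero k (Fact.out : e.Prime).ne_zero⟩
  have : Finite (Pic0.torsion Ω (modularFunctionFieldBar N) (e ^ k)) :=
    Finite.of_equiv _ ((HeckeJ0.torsionHeckeModel N e).e k).symm.toEquiv
  refine (Set.finite_range
    (fun x : Pic0.torsion Ω (modularFunctionFieldBar N) (e ^ k) => (x : JZero N))).subset ?_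
  intro x (hx : e ^ k • x = 0)
  refine ⟨⟨x, ?_⟩, rfl⟩
  show ((e ^ k : ℕ) : ℤ) • x = 0
  rw [natCast_zsmul]; exact hx

theorem exists_level_set (S : Set (JZero N)) (hS : S.Finite) :
    ∃ L : IntermediateField ℚ Ω, FiniteDimensional ℚ L ∧
      ∀ g : G_Q, (∀ a ∈ L, g a = a) → ∀ x ∈ S, g • x = x := by
  have := hS.to_subtype
  choose L hL hfix using fun x : S => jZeroSmooth N x
  refine ⟨⨆ x, L x, ?_, fun g hg x hx => hfix ⟨x, hx⟩ g fun a ha => hg a (le_iSup L ⟨x, hx⟩ ha)⟩
  have := fun x => hL x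
  exact IntermediateField.finiteDimensional_iSup_of_finite

/-- On the `e ^ k`-torsion and on an `M`-th root of unity every `g` acts as a Frobenius element
at a large prime. -/
theorem exists_frobenius_agree (g : G_Q) (k : ℕ) {M : ℕ} (hM : M ≠ 0) {μ : Ω} (hμ : μ ^ M = 1) :
    letI := heckeModuleBar N
    ∃ q : Nat.Primes, ¬ (q : ℕ) ∣ N * e ∧ g μ = μ ^ (q : ℕ) ∧ ∀ x : JZero N, e ^ k • x = 0 →
      g • g • x - heckeGen q • g • x + (q : ℕ) • x = 0 := by
  let := heckeModuleBar N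
  have : Algebra.IsAlgebraic ℚ Ω := AlgebraicClosure.isAlgebraic ℚ
  obtain ⟨L, hL, hLfix⟩ := exists_level_set N _ (finite_tors N e k)
  have := hL
  have : FiniteDimensional ℚ (IntermediateField.adjoin ℚ ({μ} : Set Ω)) :=
    IntermediateField.adjoin.finiteDimensional (Algebra.IsIntegral.isIntegral μ)
  obtain ⟨ℓ, hℓ, hℓS, A, hA, σ, hσ, hσg⟩ := frobeniusDense
    (L ⊔ IntermediateField.adjoin ℚ ({μ} : Set Ω)) inferInstance g (N * e * M).divisors
  have hne : N * e * M ≠ 0 :=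
    mul_ne_zero (mul_ne_zero (NeZero.ne N) (Fact.out : e.Prime).ne_zero) hM
  have hℓd : ¬ ℓ ∣ N * e * M := fun h => hℓS (Nat.mem_divisors.mpr ⟨h, hne⟩)
  have hℓNe : ¬ ℓ ∣ N * e := fun h => hℓd (h.mul_right M)
  refine ⟨⟨ℓ, hℓ⟩, hℓNe, ?_, fun x hx => ?_⟩
  · rw [← hσg μ (SetLike.le_def.mp le_sup_right (IntermediateField.mem_adjoin_simple_self ℚ μ))]
    exact TameInertia.frobenius_root_of_unity hℓ hA hσ (fun h => hℓd (h.mul_left (N * e))) hμ
  have hsame : ∀ z : JZero N, e ^ k • z = 0 → σ • z = g • z := fun z hz => by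
    have h1 : (g⁻¹ * σ) • z = z := hLfix (g⁻¹ * σ) (fun a ha => by
      rw [AlgEquiv.mul_apply, hσg a (SetLike.le_def.mp le_sup_left ha), ← AlgEquiv.mul_apply,
        inv_mul_cancel, AlgEquiv.one_apply]) z hz
    rw [mul_smul, inv_smul_eq_iff] at h1
    exact h1
  have hgx : e ^ k • (g • x) = 0 := by rw [gal_nsmul, hx]; exact gal_zero g
  have h := (eichlerShimuraRelations N e).frobenius ℓ hℓ hℓNe A hA σ hσ x ⟨k, hx⟩
  rw [hsame x hx, hsame _ hgx] at h
  have hop := heckeModuleBar_heckeGen_smul (HeckeJ0.heckeOperatorsCommuteBar N) ⟨ℓ, hℓ⟩ (g • x)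
  exact (congrArg (fun w => g • g • x - w + ℓ • x) hop).trans h

/-- Every Galois element satisfies a quadratic Hecke relation on the `e ^ k`-torsion. -/
theorem exists_frobenius_relation (g : G_Q) (k : ℕ) :
    letI := heckeModuleBar N
    ∃ q : Nat.Primes, ¬ (q : ℕ) ∣ N * e ∧
      ((q : ℕ) : ZMod e) = (ExtCitation.cycloChar e g : ZMod e) ∧ ∀ x : JZero N, e ^ k • x = 0 →
        g • g • x - heckeGen q • g • x + (q : ℕ) • x = 0 := by
  obtain ⟨q, h1, h2, h3⟩ := exists_frobenius_agree N e g k (Fact.out : e.Prime).ne_zero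
    (GalCoh.Descent.zetaP_spec e).pow_eq_one
  refine ⟨q, h1, ?_, h3⟩
  rw [GalCoh.Descent.apply_zetaP] at h2
  rw [pow_eq_pow_mod (q : ℕ) (GalCoh.Descent.zetaP_spec e).pow_eq_one] at h2
  have h := (GalCoh.Descent.zetaP_spec e).pow_inj
    (ZMod.val_lt (ExtCitation.cycloChar e g : ZMod e))
    (Nat.mod_lt _ (Fact.out : e.Prime).pos) h2
  rw [← ZMod.natCast_zmod_val (ExtCitation.cycloChar e g : ZMod e), h, ZMod.natCast_mod]

omit [Fact e.Prime] in
theorem unipotent_of_mul_eq {M q n : ℕ} [NeZero M] [NeZero n] [Fact q.Prime] (h : M * q = n)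
    (hqM : ¬ q ∣ M) {A : ValuationSubring Ω} (hA : A.LiesOverPrime q) {σ : G_Q}
    (hσ : σ ∈ A.inertiaSubgroupIn ℚ) {m : ℕ} (hm : m.Coprime q) {x : JZero n} (hx : m • x = 0) :
    σ • σ • x + x = σ • x + σ • x := by
  subst h
  have h := SemistableRed.inertiaUnipotent_of_facts hqM (SemistableRed.goodReductionFacts M q hqM)
    A hA σ hσ m hm x hx
  rw [two_nsmul] at h
  rw [← sub_eq_zero, ← h]; abel

variable {N e}

/-- Powers of an automorphism which is unipotent on `v = σ y - y`. -/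
theorem pow_smul_eq {J : Type*} [AddCommGroup J] [DistribMulAction G_Q J] {σ : G_Q} {y v : J}
    (hy : σ • y = y + v) (hv : σ • v = v) (i : ℕ) : σ ^ i • y = y + i • v := by
  induction i with
  | zero => simp
  | succ i ih =>
    rw [pow_succ', mul_smul, ih, smul_add, hy, smul_comm σ i v, hv, succ_nsmul]
    abel

variable (N e) in
/-- At the prime level the inertia group is tame on `y` and the torsion. -/
theorem tameData (hN : N.Prime) (hNe : N ≠ e) {R : Type*} [CommRing R] [Module R (JZero N)]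
    (D : DescentCtx G_Q (JZero N) R) (hDe : D.e = e)
    (hgen : letI := heckeModuleBar N
      ∀ q : Nat.Primes, ¬ (q : ℕ) ∣ N * e → ∃ r : R, ∀ x : JZero N, r • x = heckeGen q • x)
    (A : ValuationSubring Ω) (hA : A.LiesOverPrime N) :
    D.TameData (A.inertiaSubgroupIn ℚ : Set G_Q) N := by
  have : Fact N.Prime := ⟨hN⟩
  have hcop : ∀ j : ℕ, (e ^ j).Coprime N := fun j =>
    ((Nat.coprime_primes Fact.out hN).mpr hNe.symm).pow_left j
  have hu : ∀ σ ∈ A.inertiaSubgroupIn ℚ, ∀ (k : ℕ) (x : JZero N), e ^ k • x = 0 →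
      σ • σ • x + x = σ • x + σ • x := fun σ hσ k x hx =>
    unipotent_of_mul_eq (one_mul N) (fun h => hN.one_lt.ne' (Nat.dvd_one.mp h)) hA hσ (hcop k) hx
  refine ⟨fun σ hσ k x hx => hu σ hσ k x (hDe ▸ hx), fun k y hy => ?_⟩
  rw [hDe] at hy
  -- the finite set on which inertia is tame
  let Y : SubMulAction G_Q (JZero N) :=
    { carrier := {z | e ^ k • z = 0 ∨ e ^ k • z = e ^ k • y}
      smul_mem' := fun g z hz => hz.imp
        (fun (h : e ^ k • z = 0) => by rw [gal_nsmul, h]; exact gal_zero g)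
        fun (h : e ^ k • z = e ^ k • y) => by rw [gal_nsmul, h, hy g trivial] }
  have hYfin : (Y : Set (JZero N)).Finite := by
    refine ((finite_tors N e k).union ((finite_tors N e k).image (y + ·))).subset ?_
    rintro z (h | h)
    · exact Or.inl h
    · exact Or.inr ⟨z - y, show e ^ k • (z - y) = 0 by rw [nsmul_sub, h, sub_self], by simp⟩
  let ρ : G_Q →* Equiv.Perm Y := MulAction.toPermHom G_Q Y
  have hρ : ∀ (τ : G_Q) (z : Y), ((ρ τ z : Y) : JZero N) = τ • (z : JZero N) := fun τ z => rfl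
  have hopen : ∃ F₀ : IntermediateField ℚ Ω, FiniteDimensional ℚ F₀ ∧
      F₀.fixingSubgroup ≤ ρ.ker := by
    obtain ⟨L, hL, hfix⟩ := exists_level_set N _ hYfin
    refine ⟨L, hL, fun τ hτ => Equiv.ext fun z => Subtype.ext ?_⟩
    rw [hρ]
    exact hfix τ ((IntermediateField.mem_fixingSubgroup_iff _ _).mp hτ) z z.2
  -- inertia has exponent `e ^ (2 k)` on it
  have hexp : ∀ σ ∈ A.inertiaSubgroupIn ℚ, ρ σ ^ (e ^ k * e ^ k) = 1 := by
    intro σ hσ
    rw [← map_pow, pow_mul]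
    have hT : ∀ x : JZero N, e ^ k • x = 0 → σ ^ e ^ k • x = x := fun x hx => by
      have hx' : e ^ k • (σ • x - x) = 0 := by
        rw [nsmul_sub, gal_nsmul, hx, gal_zero σ, sub_zero]
      have hv : σ • (σ • x - x) = σ • x - x := by
        rw [smul_sub, eq_sub_of_add_eq (hu σ hσ k x hx)]; abel
      rw [pow_smul_eq (v := σ • x - x) (by abel) hv, hx', add_zero]
    refine Equiv.ext fun z => Subtype.ext ?_
    rw [hρ, Equiv.Perm.one_apply]
    set τ := σ ^ e ^ k
    have hv : e ^ k • (τ • (z : JZero N) - z) = 0 := by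
      rw [nsmul_sub, gal_nsmul]
      rcases z.2 with h | h
      · rw [show e ^ k • (z : JZero N) = 0 from h, gal_zero τ,
          sub_zero]
      · rw [show e ^ k • (z : JZero N) = e ^ k • y from h, hy τ trivial, sub_self]
    rw [pow_smul_eq (v := τ • (z : JZero N) - z) (by abel) (hT _ hv), hv, add_zero]
  obtain ⟨⟨σ, hσ, hcyc⟩, hconj⟩ := TameInertia.map_tame_inertia hopen hN hA
    ((hcop k).mul_left (hcop k)) hexp
  obtain ⟨φ, hφ⟩ := Frobenius.exists_isFrobeniusAt_qbar hN hA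
  have hY : ∀ z : JZero N, z = y ∨ z ∈ D.tors k → z ∈ Y := fun z hz => by
    rcases hz with rfl | h
    · exact Or.inr rfl
    · rw [D.mem_tors, hDe] at h; exact Or.inl h
  -- the Frobenius relation
  have : NeZero ((e ^ k : ℕ) : Ω) :=
    ⟨Nat.cast_ne_zero.mpr (pow_ne_zero k (Fact.out : e.Prime).ne_zero)⟩
  obtain ⟨μ, hprim⟩ := HasEnoughRootsOfUnity.exists_primitiveRoot Ω (e ^ k)
  obtain ⟨q, hqNe, hqμ, hrel⟩ := exists_frobenius_agree N e φ k
    (pow_ne_zero k (Fact.out : e.Prime).ne_zero) hprim.pow_eq_one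
  obtain ⟨t, ht⟩ := hgen q hqNe
  refine ⟨σ, hσ, φ, t, fun τ hτ => ?_, fun z hz => ?_, fun x hx => ?_⟩
  · obtain ⟨i, hi⟩ := hcyc τ hτ
    refine ⟨i, fun z hz => ?_⟩
    rw [← map_pow] at hi
    have h := congrArg Subtype.val (Equiv.congr_fun hi ⟨z, hY z hz⟩)
    rwa [hρ, hρ] at h
  · have h := hconj φ hφ σ hσ
    rw [mul_inv_eq_iff_eq_mul, ← map_pow, ← map_mul, ← map_mul] at h
    have h' := congrArg Subtype.val (Equiv.congr_fun h ⟨z, hY z hz⟩)
    rwa [hρ, hρ, mul_smul, mul_smul] at h'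
  · rw [D.mem_tors, hDe] at hx
    rw [ht]
    have hNq : N • x = (q : ℕ) • x := by
      have hN' : φ μ = μ ^ N := TameInertia.frobenius_root_of_unity hN hA hφ
        (fun h => hNe ((Nat.prime_dvd_prime_iff_eq hN Fact.out).mp (hN.dvd_of_dvd_pow h)))
        hprim.pow_eq_one
      rw [hqμ, pow_eq_pow_mod (q : ℕ) hprim.pow_eq_one, pow_eq_pow_mod N hprim.pow_eq_one] at hN'
      have hpos : 0 < e ^ k := pow_pos (Fact.out : e.Prime).pos k
      replace hN' : (q : ℕ) ≡ N [MOD e ^ k] :=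
        hprim.pow_inj (Nat.mod_lt _ hpos) (Nat.mod_lt _ hpos) hN'
      have hz : ((q : ℕ) : ℤ) - N ∈ Ideal.span {((e ^ k : ℕ) : ℤ)} :=
        Ideal.mem_span_singleton.mpr (Nat.modEq_iff_dvd.mp hN'.symm)
      obtain ⟨c, hc⟩ := Ideal.mem_span_singleton'.mp hz
      rw [← natCast_zsmul x N, ← natCast_zsmul x (q : ℕ), ← sub_eq_zero, ← sub_smul,
        show (N : ℤ) - ((q : ℕ) : ℤ) = -c * ((e ^ k : ℕ) : ℤ) by linear_combination hc,
        mul_smul, natCast_zsmul, hx, smul_zero]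
    rw [hNq]
    exact hrel x hx

end Fermat.Agent.Mazur

end
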