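import Fermat.Agent.Mazur.Global.GoodSet
import Fermat.Agent.Mazur.Global.Tame
import Fermat.Agent.Mazur.Descent.Local
import Fermat.Agent.Mazur.Conj.Main
import Fermat.Agent.FlatJ0.Bound

/-!
# The Eisenstein descent on `J₀(N)`

With a rational point of exact order `e` some Hecke operator congruent to `1` modulo the
Eisenstein ideal sends every rational point to a torsion point.
-/

set_option autoImplicit false

noncomputable section

open scoped Classical

namespace Fermat.Agent.Mazur

open ModularCurve ExtCitation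

local notation "Qbar" => AlgebraicClosure ℚ
local notation "G_ℚ" => (AlgebraicClosure ℚ) ≃ₐ[ℚ] (AlgebraicClosure ℚ)

/-- The primes prime to `N e`. -/
abbrev GoodPrimes (N e : ℕ) : Type := {q : Nat.Primes // ¬ (q : ℕ) ∣ N * e}

/-- The Hecke algebra at the primes prime to `N e`. -/
abbrev GoodAlg (N e : ℕ) : Type := MvPolynomial (GoodPrimes N e) ℤ

/-- The inclusion into the Hecke algebra. -/
def toHecke (N e : ℕ) : GoodAlg N e →+* HeckeAlg :=
  (MvPolynomial.rename Subtype.val).toRingHom

/-- The Eisenstein eigenvalues `T_q ↦ 1 + q`. -/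
def eisInt (N e : ℕ) : GoodAlg N e →+* ℤ :=
  MvPolynomial.eval₂Hom (RingHom.id ℤ) fun q => 1 + ((q.1 : ℕ) : ℤ)

/-- The eigenvalues modulo `e`. -/
def eisMod (N e : ℕ) : GoodAlg N e →+* ZMod e :=
  (Int.castRingHom (ZMod e)).comp (eisInt N e)

theorem eisMod_X (N e : ℕ) (q : GoodPrimes N e) :
    eisMod N e (MvPolynomial.X q) = 1 + ((q.1 : ℕ) : ZMod e) := by
  simp [eisMod, eisInt]

variable (N e : ℕ) [NeZero N]

/-- `J₀(N)` as a module over the good Hecke algebra. -/
abbrev goodModule : Module (GoodAlg N e) (JZero N) :=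
  letI := heckeModuleBar N
  Module.compHom (JZero N) (toHecke N e)

theorem goodModule_smul (r : GoodAlg N e) (x : JZero N) :
    (letI := goodModule N e; r • x) = (letI := heckeModuleBar N; toHecke N e r • x) := rfl

theorem goodModule_X_smul (q : GoodPrimes N e) (x : JZero N) :
    (letI := goodModule N e; (MvPolynomial.X q : GoodAlg N e) • x) = heckeOperatorBar N q.1 x := by
  let := heckeModuleBar N
  rw [goodModule_smul, toHecke]
  show (MvPolynomial.rename Subtype.val (MvPolynomial.X q) : HeckeAlg) • x = _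
  rw [MvPolynomial.rename_X]
  exact heckeModuleBar_heckeGen_smul (HeckeJ0.heckeOperatorsCommuteBar N) q.1 x

theorem smul_comm_good (g : G_ℚ) (r : GoodAlg N e) (x : JZero N) :
    (letI := goodModule N e; g • r • x) = (letI := goodModule N e; r • g • x) := by
  let := heckeModuleBar N
  have hc := EigenRep.smulCommClass_of_equivariant (HeckeJ0.heckeOperatorsCommuteBar N)
    (HeckeJ0.heckeGaloisEquivariant N)
  exact smul_comm g (toHecke N e r) x

/-- A rational point killed by a power of `e` is an eigenvector. -/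
theorem good_smul_eq_eisInt [Fact e.Prime] {w : JZero N} (hw : ∀ σ : G_ℚ, σ • w = w) {k : ℕ}
    (hk : e ^ k • w = 0) (r : GoodAlg N e) :
    (letI := goodModule N e; r • w) = eisInt N e r • w := by
  let := goodModule N e
  induction r using MvPolynomial.induction_on with
  | C a =>
    let := heckeModuleBar N
    rw [goodModule_smul, toHecke, eisInt]
    show (MvPolynomial.rename Subtype.val (MvPolynomial.C a) : HeckeAlg) • w = _
    rw [MvPolynomial.rename_C, heckeModuleBar_C_smul, MvPolynomial.eval₂Hom_C]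
    rfl
  | add r s hr hs => rw [add_smul, hr, hs, map_add]; exact (add_zsmul _ _ _).symm
  | mul_X r q hr =>
    have hq : (q.1 : ℕ).Prime := q.1.2
    obtain ⟨A, σ, hA, hσ⟩ := Frobenius.exists_liesOverPrime_and_isFrobeniusAt_qbar hq
    have h := (EigenRep.eichlerShimuraRelations N e).frobenius _ hq q.2 A hA σ hσ w ⟨k, hk⟩
    rw [hw, hw] at h
    have hT : heckeOperatorBar N q.1 w = (1 + ((q.1 : ℕ) : ℤ)) • w := by
      rw [add_zsmul, one_zsmul, natCast_zsmul]
      exact (sub_eq_zero.1 (by rw [← h]; abel : w + (q.1 : ℕ) • w - heckeOperatorBar N q.1 w = 0)).symm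
    rw [mul_smul, goodModule_X_smul, hT, smul_comm, hr, map_mul, ← mul_smul,
      show eisInt N e (MvPolynomial.X q) = 1 + ((q.1 : ℕ) : ℤ) by simp [eisInt], mul_comm]

/-- An element killing the `e^k`-torsion, `k ≥ 1`, has eigenvalue zero modulo `e`. -/
theorem eisMod_eq_zero [Fact e.Prime] {w : JZero N} (hw : ∀ σ : G_ℚ, σ • w = w)
    (hwo : addOrderOf w = e) {r : GoodAlg N e}
    (hr : (letI := goodModule N e; r • w) = 0) : eisMod N e r = 0 := by
  rw [good_smul_eq_eisInt N e hw (k := 1) (by rw [pow_one, ← hwo, addOrderOf_nsmul_eq_zero])] at hr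
  have h := addOrderOf_dvd_iff_zsmul_eq_zero.2 hr
  rw [hwo] at h
  exact (ZMod.intCast_zmod_eq_zero_iff_dvd _ e).2 h

/-- The descent: some operator `≡ 1` sends all rational points to torsion. -/
theorem exists_torsion_eisenstein [Fact e.Prime] (hN : N.Prime) (hNe : N ≠ e) {w : JZero N}
    (hw : ∀ σ : G_ℚ, σ • w = w) (hwo : addOrderOf w = e) :
    letI := goodModule N e
    ∃ t : GoodAlg N e, eisMod N e t = 1 ∧
      ∀ a : JZero N, (∀ σ : G_ℚ, σ • a = a) → IsOfFinAddOrder (t • a) := by
  let := goodModule N e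
  have he : e.Prime := Fact.out
  have : NeZero e := ⟨he.ne_zero⟩
  have hfin : ∀ k : ℕ, Finite (Submodule.torsionBy (GoodAlg N e) (JZero N)
      ((e ^ k : ℕ) : GoodAlg N e)) := fun k => by
    have : NeZero (e ^ k) := ⟨pow_ne_zero k he.ne_zero⟩
    refine ((finite_nsmul_eq_zero (N := N) (e ^ k)).subset fun x hx => ?_).to_subtype
    have := (Submodule.mem_torsionBy_iff _ _).1 hx
    rwa [Nat.cast_smul_eq_nsmul] at this
  have hu : ∀ k : ℕ, ∃ u, IsEigenIdem (eisMod N e)
      (Submodule.torsionBy (GoodAlg N e) (JZero N) ((e ^ k : ℕ) : GoodAlg N e)) u := by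
    intro k
    obtain ⟨u, hu⟩ := exists_isEigenIdem (eisMod N e)
      (Submodule.torsionBy (GoodAlg N e) (JZero N) ((e ^ (k + 1) : ℕ) : GoodAlg N e))
      fun r hr => eisMod_eq_zero N e hw hwo (hr w (by
        rw [Submodule.mem_torsionBy_iff, Nat.cast_smul_eq_nsmul, pow_succ', mul_smul,
          smul_comm, ← hwo, addOrderOf_nsmul_eq_zero, smul_zero]))
    refine ⟨u, hu.mono fun x hx => ?_⟩
    rw [Submodule.mem_torsionBy_iff, Nat.cast_smul_eq_nsmul] at hx ⊢
    rw [pow_succ', mul_smul, hx, smul_zero]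
  choose u hu using hu
  let D : DescentCtx G_ℚ (JZero N) (GoodAlg N e) :=
    { e := e
      prime := he
      comm := smul_comm_good N e
      ε := eisMod N e
      divisible := MWJ0.jZero_divisible N he.ne_zero
      finite_torsion := fun k =>
        haveI : NeZero (e ^ k) := ⟨pow_ne_zero k he.ne_zero⟩
        finite_nsmul_eq_zero (e ^ k)
      u := u
      isEigenIdem := hu }
  obtain ⟨AN, σ₀, hAN, -⟩ := Frobenius.exists_liesOverPrime_and_isFrobeniusAt_qbar hN
  have hgood : GoodSet e N (divKerQ N e) :=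
    goodSet_divKerQ he hN (FlatJ0.jZeroLiftBound fun hd =>
      hNe ((Nat.prime_dvd_prime_iff_eq he hN).1 hd).symm)
  let L : LocalData G_ℚ D.e := localDataQ e AN (divKerQ N e)
  have hfix : ∀ x : JZero N, x ∈ fixedBy' (Set.univ : Set G_ℚ) ↔ ∀ σ : G_ℚ, σ • x = x :=
    fun x => ⟨fun h σ => h σ trivial, fun h σ _ => h σ⟩
  have hlines : L.HasLines (D.part 1) := by
    refine LocalData.hasLines (e := e) (localDataQ e AN (divKerQ N e)) (D.part 1) (fun x hx => (congrArg (· • x) (pow_one e)).symm.trans (D.mem_tors.1 hx.1))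
      (cycloChar e) (fun g => ?_) (admissible_one hgood hN hNe hAN)
      (admissible_cyclo hgood hN hNe hAN)
    · obtain ⟨q, hq, hqχ, hrel⟩ := exists_frobenius_relation N e g 1
      set r : GoodAlg N e := MvPolynomial.X ⟨q, hq⟩ - 1 - ((q : ℕ) : GoodAlg N e) with hr
      have hr0 : eisMod N e r = 0 := by
        rw [hr, map_sub, map_sub, eisMod_X, map_one, map_natCast]; ring
      obtain ⟨n, hn⟩ := (hu 1).nilp r hr0
      refine ⟨n, fun x hx => ?_⟩
      have hstep : ∀ y ∈ D.part 1, quadOp g (cycloChar e g : ZMod e).val y = r • g • y := by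
        intro y hy
        have hy1 : e • y = 0 := (congrArg (· • y) (pow_one e)).symm.trans (D.mem_tors.1 hy.1)
        have hc : (cycloChar e g : ZMod e).val • y = (q : ℕ) • y := by
          rw [← hqχ, ZMod.val_natCast]
          conv_rhs => rw [← Nat.mod_add_div (q : ℕ) e, add_smul, mul_comm, mul_smul, hy1,
            smul_zero, add_zero]
        have hrel' := hrel y (by rw [pow_one, hy1])
        let := heckeModuleBar N
        rw [hr, sub_smul, sub_smul, one_smul, goodModule_X_smul, Nat.cast_smul_eq_nsmul,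
          ← heckeModuleBar_heckeGen_smul (HeckeJ0.heckeOperatorsCommuteBar N) q (g • y),
          quadOp, hc, smul_sub, smul_nsmul_comm]
        rw [sub_add_eq_add_sub, sub_eq_zero] at hrel'
        rw [← hrel']
        abel
      have hiter : ∀ m : ℕ, ∀ y ∈ D.part 1,
          (quadOp g (cycloChar e g : ZMod e).val)^[m] y = r ^ m • g ^ m • y := by
        intro m
        induction m with
        | zero => intro y _; simp
        | succ m ih =>
          intro y hy
          rw [Function.iterate_succ_apply, hstep y hy,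
            ih _ (D.r_smul_mem_part r (D.g_smul_mem_part g hy)), smul_comm_good, ← mul_smul,
            ← mul_smul, ← pow_succ, ← pow_succ]
      rw [hiter n x hx]
      have hgx := D.g_smul_mem_part (g ^ n) hx
      have h1 := hn _ (D.mem_torsionBy_iff'.2 hgx.1)
      rwa [mul_smul, show u 1 • g ^ n • x = g ^ n • x from hgx.2] at h1
  have hZ : ∀ σ ∈ L.Z, ∀ y : JZero N, D.e • y ∈ fixedBy' (Set.univ : Set G_ℚ) → σ • y = y :=
    fun σ hσ y hy => hσ y fun τ => (hfix _).1 hy τ
  have hfg : (fixedBy' (Set.univ : Set G_ℚ) : AddSubgroup (JZero N)).FG := by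
    have h : (fixedBy' (Set.univ : Set G_ℚ) : AddSubgroup (JZero N)) = ratPts N :=
      AddSubgroup.ext fun x => hfix x
    rw [h]
    exact (AddGroup.fg_iff_addSubgroup_fg _).1 (MWJ0.fg_fixedPoints_JZero N)
  have hgen : letI := heckeModuleBar N
      ∀ q : Nat.Primes, ¬ (q : ℕ) ∣ N * e → ∃ r : GoodAlg N e, ∀ x : JZero N,
        (letI := goodModule N e; r • x) = heckeGen q • x := by
    intro q hq
    exact ⟨MvPolynomial.X ⟨q, hq⟩, fun x => by
      rw [goodModule_X_smul]
      exact (heckeModuleBar_heckeGen_smul (HeckeJ0.heckeOperatorsCommuteBar N) q x).symm⟩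
  have hbal : ∀ k, Nat.card (D.part k) ≤ Nat.card (D.fix L.Hinf k) ^ 2 := by
    intro k
    let := heckeModuleBar N
    refine le_trans (le_of_eq ?_) ((conjBalance N e k he (toHecke N e (u k))
      fun x hx => D.u_idem (k := k) hx).trans (le_of_eq (congrArg (· ^ 2) ?_)))
    · exact Nat.card_congr (Equiv.subtypeEquivRight fun x => Iff.rfl)
    · refine Nat.card_congr (Equiv.subtypeEquivRight fun x => ?_)
      exact ⟨fun h => ⟨h.1, fun g hg => by rw [Set.mem_singleton_iff.1 hg]; exact h.2⟩,
        fun h => ⟨h.1, h.2 _ (Set.mem_singleton _)⟩⟩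
  obtain ⟨t, ht, hta⟩ := D.exists_torsion_eigen L hlines hZ hfg hN.two_le
    ((Nat.coprime_primes hN he).2 hNe) (tameData N e hN hNe D rfl hgen AN hAN)
    complexConjugation_mul_self (fun g hg => Set.mem_singleton_iff.1 hg) hbal
  exact ⟨t, ht, fun a ha => hta a ((hfix a).2 ha)⟩

end Fermat.Agent.Mazur
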