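import Fermat.Agent.Mazur.Global.Kummer
import Fermat.Agent.FlatJ0.Abstract
import Fermat.Agent.EigenRep.Main
import Fermat.Agent.J0Torsion.Card
import Fermat.Agent.MWJ0.DivisibleAll
import Fermat.Agent.MWJ0.Instance

/-!
# The good open subgroup attached to the rational points of `J₀(N)`

`divKerQ N e` fixes every point `y` with `e • y` rational.  Given divisibility and finite
generation it is open, contains inertia away from `e N`, and meets inertia at `e` in a group with
Fontaine's bound.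
-/

set_option autoImplicit false

noncomputable section

open scoped Classical

namespace Fermat.Agent.Mazur

open ModularCurve Fermat.Agent.FlatJ0 Fermat.Agent.GalCoh

local notation "Ω" => AlgebraicClosure ℚ
local notation "G_ℚ" => (AlgebraicClosure ℚ) ≃ₐ[ℚ] (AlgebraicClosure ℚ)

variable (N : ℕ) [NeZero N] (e : ℕ)

/-- The rational points of `J₀(N)`. -/
abbrev ratPts : AddSubgroup (JZero N) := FixedPoints.addSubgroup G_ℚ (JZero N)

/-- The elements fixing every point some multiple by `e` of which is rational. -/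
def divKerQ : Subgroup G_ℚ where
  carrier := {σ | ∀ y : JZero N, e • y ∈ ratPts N → σ • y = y}
  one_mem' y _ := one_smul _ y
  mul_mem' {a b} ha hb y hy := by rw [mul_smul, hb y hy, ha y hy]
  inv_mem' {a} ha y hy := by
    conv_lhs => rw [← ha y hy, inv_smul_smul]

variable {N e}

omit [NeZero N] in
theorem mem_divKerQ {σ : G_ℚ} :
    σ ∈ divKerQ N e ↔ ∀ y : JZero N, e • y ∈ ratPts N → σ • y = y := Iff.rfl

/-- The `n`-torsion of `J₀(N)` is finite. -/
theorem finite_nsmul_eq_zero (n : ℕ) [NeZero n] : {x : JZero N | n • x = 0}.Finite := by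
  have h : 0 < Nat.card (AlgebraicCurve.Pic0.torsion Ω (modularFunctionFieldBar N) n) := by
    rw [J0Torsion.natCard_torsion' N n]
    exact pow_pos (Nat.pos_of_ne_zero (NeZero.ne n)) _
  have := (Nat.card_pos_iff.1 h).2
  refine (AlgebraicCurve.Pic0.torsion Ω (modularFunctionFieldBar N) n : Set _).toFinite.subset ?_
  intro x hx
  rw [SetLike.mem_coe, AlgebraicCurve.Pic0.mem_torsion, natCast_zsmul]
  exact hx

/-- Finitely many points suffice to test membership in `divKerQ`. -/
theorem exists_test_points [NeZero e] (hdiv : ∀ x : JZero N, ∃ y, e • y = x)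
    (hfg : AddGroup.FG (ratPts N)) :
    ∃ S : Finset (JZero N), (∀ y ∈ S, e • y ∈ ratPts N) ∧
      ∀ σ : G_ℚ, (∀ y ∈ S, σ • y = y) → σ ∈ divKerQ N e := by
  obtain ⟨T, hT⟩ := hfg.out
  choose d hd using hdiv
  refine ⟨(finite_nsmul_eq_zero (N := N) e).toFinset ∪ T.image (fun a : ratPts N => d (a : JZero N)), ?_, ?_⟩
  · intro y hy
    rcases Finset.mem_union.1 hy with h | h
    · rw [Set.Finite.mem_toFinset] at h
      rw [show e • y = 0 from h]
      exact zero_mem _
    · obtain ⟨a, -, rfl⟩ := Finset.mem_image.1 h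
      rw [hd]
      exact a.2
  intro σ hσ
  rw [mem_divKerQ]
  have htor : ∀ z : JZero N, e • z = 0 → σ • z = z := fun z hz =>
    hσ z (Finset.mem_union_left _ ((Set.Finite.mem_toFinset _).2 hz))
  let W : AddSubgroup (JZero N) :=
    { carrier := {y | σ • y = y}
      zero_mem' := smul_zero σ
      add_mem' := fun {x y} (hx : σ • x = x) (hy : σ • y = y) =>
        show σ • (x + y) = x + y by rw [smul_add, hx, hy]
      neg_mem' := fun {x} (hx : σ • x = x) => show σ • -x = -x by rw [smul_neg, hx] }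
  have key : ∀ a : ratPts N, ∃ y ∈ W, e • y = (a : JZero N) := by
    intro a
    have ha : a ∈ AddSubgroup.closure (T : Set (ratPts N)) := hT ▸ AddSubgroup.mem_top a
    induction ha using AddSubgroup.closure_induction with
    | mem x hx =>
      exact ⟨d x, hσ _ (Finset.mem_union_right _ (Finset.mem_image_of_mem _ hx)), hd x⟩
    | zero => exact ⟨0, zero_mem W, smul_zero _⟩
    | add x y _ _ hx hy =>
      obtain ⟨u, hu, hux⟩ := hx
      obtain ⟨v, hv, hvy⟩ := hy
      exact ⟨u + v, add_mem hu hv, by rw [nsmul_add, hux, hvy]; rfl⟩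
    | neg x _ hx =>
      obtain ⟨u, hu, hux⟩ := hx
      exact ⟨-u, neg_mem hu, by rw [neg_nsmul, hux]; rfl⟩
  intro y hy
  obtain ⟨u, hu, hue⟩ := key ⟨_, hy⟩
  have h1 : y - u ∈ W := htor _ (by rw [nsmul_sub, hue, sub_self])
  have h2 : y ∈ W := by simpa using add_mem h1 hu
  exact h2

/-- `divKerQ` is open. -/
theorem divKerQ_level [NeZero e] (hdiv : ∀ x : JZero N, ∃ y, e • y = x)
    (hfg : AddGroup.FG (ratPts N)) : fullLevels.mem (divKerQ N e) := by
  obtain ⟨S, -, hS⟩ := exists_test_points hdiv hfg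
  choose L hL hfix using EigenRep.jZeroSmooth N
  have : ∀ y, FiniteDimensional ℚ (L y) := hL
  refine ⟨⨆ y : S, L (y : JZero N), IntermediateField.finiteDimensional_iSup_of_finite,
    fun σ hσ => hS σ fun y hy => hfix y σ fun a ha => ?_⟩
  exact (IntermediateField.mem_fixingSubgroup_iff _ _).1 hσ a
    (le_iSup (fun y : S => L (y : JZero N)) ⟨y, hy⟩ ha)

/-- Inertia at a prime not dividing `e N` fixes every such point. -/
theorem inertia_le_divKerQ (he : e.Prime) {q : ℕ} (hq : q.Prime) (hqe : q ≠ e)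
    (hqN : ¬ q ∣ N) {A : ValuationSubring Ω} (hA : A.LiesOverPrime q) :
    A.inertiaSubgroupIn ℚ ≤ divKerQ N e := by
  let := heckeModuleBar N
  have hcomm : SMulCommClass G_ℚ HeckeAlg (JZero N) :=
    EigenRep.smulCommClass_of_equivariant (HeckeJ0.heckeOperatorsCommuteBar N)
      (HeckeJ0.heckeGaloisEquivariant N)
  have hq' : ¬ q ∣ N * e := fun h => (hq.dvd_mul.1 h).elim hqN
    fun h => hqe ((Nat.prime_dvd_prime_iff_eq hq he).1 h)
  obtain ⟨J', iJ, iM, sp, F, hsp, -⟩ :=
    EigenRep.specializationExists N e (HeckeJ0.heckeOperatorsCommuteBar N) hcomm q hq hq' A hA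
  intro σ hσ y hy
  refine sub_eq_zero.1 (hsp.injective_torsion _ ⟨1, ?_⟩ ?_)
  · rw [pow_one, nsmul_sub, ← smul_nsmul_comm σ e y, hy σ, sub_self]
  · rw [map_sub, hsp.inertia_comm σ hσ, sub_self]

omit [NeZero N] in
/-- The bound for the elements fixing finitely many division points. -/
theorem bound_fix_finset {A : ValuationSubring Ω} (hA : IsOver A e)
    (hlift : JZeroLiftBound N e) {S : Finset (JZero N)} (hS : ∀ y ∈ S, e • y ∈ ratPts N) :
    ∃ M : Subgroup G_ℚ, Twist.Bound A e M ∧ divKerQ N e ⊓ A.inertiaSubgroupIn ℚ ≤ M ∧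
      M ≤ A.inertiaSubgroupIn ℚ ∧ ∀ σ ∈ M, ∀ y ∈ S, σ • y = y := by
  induction S using Finset.induction with
  | empty =>
    refine ⟨divisionKer A e (JZero N) 0, fun γ hγ => hlift A hA.liesOver 0
      (fun σ _ => smul_zero (A := JZero N) σ) γ hγ, fun σ hσ => ⟨hσ.2, fun z hz => hσ.1 z ?_⟩,
      fun σ hσ => hσ.1, fun σ _ y hy => absurd hy (Finset.notMem_empty y)⟩
    rcases hz with h | h <;> rw [h] <;> exact zero_mem _
  | insert y₀ S hy₀ ih =>
    obtain ⟨M, hM, hle, hMI, hfix⟩ := ih fun y hy => hS y (Finset.mem_insert_of_mem hy)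
    have ha := hS y₀ (Finset.mem_insert_self _ _)
    refine ⟨M ⊓ divisionKer A e (JZero N) (e • y₀), Twist.bound_inf hM
      fun γ hγ => hlift A hA.liesOver _ (fun σ _ => ha σ) γ hγ,
      le_inf hle fun σ hσ => ⟨hσ.2, fun z hz => hσ.1 z ?_⟩, inf_le_left.trans hMI, ?_⟩
    · rcases hz with h | h <;> rw [h]
      · exact zero_mem _
      · exact ha
    · intro σ hσ y hy
      rcases Finset.mem_insert.1 hy with rfl | h
      · exact hσ.2.2 y (Or.inr rfl)
      · exact hfix σ hσ.1 y h

/-- `divKerQ` is a good set. -/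
theorem goodSet_divKerQ (he : e.Prime) (hN : N.Prime) (hlift : JZeroLiftBound N e) :
    GoodSet e N (divKerQ N e) := by
  have : NeZero e := ⟨he.ne_zero⟩
  have hdiv : ∀ x : JZero N, ∃ y, e • y = x := MWJ0.jZero_divisible N he.ne_zero
  have hfg : AddGroup.FG (ratPts N) := MWJ0.fg_fixedPoints_JZero N
  refine ⟨divKerQ_level hdiv hfg, fun q hq hqe hqN => ?_, ?_⟩
  · obtain ⟨A, σ, hA, -⟩ := Frobenius.exists_liesOverPrime_and_isFrobeniusAt_qbar hq
    exact ⟨A, hA, inertia_le_divKerQ he hq hqe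
      (fun h => hqN ((Nat.prime_dvd_prime_iff_eq hq hN).1 h)) hA⟩
  · obtain ⟨A, σ, hA, -⟩ := Frobenius.exists_liesOverPrime_and_isFrobeniusAt_qbar he
    obtain ⟨S, hS, hS'⟩ := exists_test_points hdiv hfg
    obtain ⟨M, hM, hle, hMI, hfix⟩ := bound_fix_finset (A := A) ⟨he, hA⟩ hlift hS
    refine ⟨A, ⟨he, hA⟩, ?_⟩
    rwa [show divKerQ N e ⊓ A.inertiaSubgroupIn ℚ = M from
      le_antisymm hle fun σ hσ => ⟨hS' σ (hfix σ hσ), hMI hσ⟩]

end Fermat.Agent.Mazur
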