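import Fermat.Agent.Mazur.Descent.Lines
import Fermat.Agent.Mazur.Twist.Character
import Fermat.Agent.GalCoh.Descent.Mu
import Fermat.Agent.FreyReducible.InertiaLift
import Fermat.Agent.BigImage.Frey
import Fermat.Prelude.Def_GaloisRep_ComplexConjugation

/-!
# Admissibility of the trivial and of the cyclotomic character

A cocycle for either character that vanishes on a good open subgroup (containing inertia away
from `e` and `N`, and meeting inertia at `e` in a group with Fontaine's bound) and is locally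
trivial at `N` and at the real place is a coboundary: by Minkowski for the trivial character,
and by Kummer theory for the cyclotomic one.
-/

set_option autoImplicit false

noncomputable section

open scoped Classical

namespace Fermat.Agent.Mazur

open Fermat.Agent.FlatJ0 Fermat.Agent.GalCoh Fermat.Agent.GalCoh.Descent ExtCitation

local notation "Ω" => AlgebraicClosure ℚ
local notation "G_ℚ" => (AlgebraicClosure ℚ) ≃ₐ[ℚ] (AlgebraicClosure ℚ)

local instance isAlgebraicQbar_km : Algebra.IsAlgebraic ℚ (AlgebraicClosure ℚ) :=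
  AlgebraicClosure.isAlgebraic ℚ
local instance isAlgClosureQbar_km : IsAlgClosure ℚ (AlgebraicClosure ℚ) :=
  ⟨inferInstance, inferInstance⟩
local instance isGaloisQbar_km : IsGalois ℚ (AlgebraicClosure ℚ) :=
  have : Normal ℚ (AlgebraicClosure ℚ) := IsAlgClosure.normal ℚ (AlgebraicClosure ℚ)
  have : Algebra.IsSeparable ℚ (AlgebraicClosure ℚ) :=
    Algebra.IsAlgebraic.isSeparable_of_perfectField
  IsGalois.mk

/-- A natural number has integral valuation given by its factorisation. -/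
theorem ord_natCast {A : ValuationSubring Ω} {ℓ : ℕ} (h : IsOver A ℓ) {n : ℕ} (hn : n ≠ 0) :
    ord A ℓ (n : Ω) = n.factorization ℓ := by
  set v := n.factorization ℓ with hv
  set n' := n / ℓ ^ v with hn'
  have hmul : ℓ ^ v * n' = n := Nat.ordProj_mul_ordCompl_eq_self n ℓ
  have hnd : ¬ ℓ ∣ n' := Nat.not_dvd_ordCompl h.prime hn
  have hn'0 : (n' : Ω) ≠ 0 := by
    rw [Nat.cast_ne_zero]
    intro e
    exact hnd (e ▸ dvd_zero ℓ)
  have h1 : ord A ℓ (n' : Ω) = 0 := by
    refine le_antisymm (le_of_not_gt fun hlt => hnd ?_) ((h.mem_iff hn'0).1 (natCast_mem A n'))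
    have h2 : ((n' : ℕ) : A) ∈ IsLocalRing.maximalIdeal A := by
      rw [← ValuationSubring.coe_mem_nonunits_iff]
      push_cast
      exact (h.nonunit_iff hn'0).2 hlt
    rw [← IsLocalRing.residue_eq_zero_iff, map_natCast] at h2
    have := Frobenius.residueField_charP h.prime h.liesOver
    exact (CharP.cast_eq_zero_iff (IsLocalRing.ResidueField A) ℓ n').1 h2
  conv_lhs => rw [← hmul]
  rw [Nat.cast_mul, Nat.cast_pow, h.ord_mul (pow_ne_zero _ h.natCast_ne_zero) hn'0,
    h.ord_pow h.natCast_ne_zero, h.ord_p, h1, mul_one, add_zero]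

/-- An `e`-th power of an element fixed by inertia has valuation divisible by `e`. -/
theorem dvd_factorization_of_fixed {A : ValuationSubring Ω} {ℓ : ℕ} (h : IsOver A ℓ) {e : ℕ}
    {α : Ω} (hα0 : α ≠ 0) {n : ℤ} (hn : α ^ e = (n : Ω))
    (hfix : ∀ σ ∈ A.inertiaSubgroupIn ℚ, σ α = α) : e ∣ n.natAbs.factorization ℓ := by
  obtain ⟨z, hz⟩ := h.exists_ord_eq_int hfix
  have hn0 : n ≠ 0 := fun e' => pow_ne_zero e hα0 (by rw [hn, e', Int.cast_zero])
  have h1 : ord A ℓ ((n.natAbs : ℕ) : Ω) = ord A ℓ (α ^ e) := by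
    rcases Int.natAbs_eq n with e' | e'
    · rw [hn]
      conv_rhs => rw [e', Int.cast_natCast]
    · rw [hn]
      conv_rhs => rw [e', Int.cast_neg, h.ord_neg, Int.cast_natCast]
  rw [ord_natCast h (Int.natAbs_ne_zero.2 hn0), h.ord_pow hα0, hz] at h1
  exact Int.natCast_dvd_natCast.1 ⟨z, by exact_mod_cast h1⟩

/-- A natural number all of whose exponents are divisible by `e` is an `e`-th power. -/
theorem exists_pow_eq_of_dvd_factorization {e q : ℕ} (hq : q ≠ 0)
    (h : ∀ ℓ, e ∣ q.factorization ℓ) : ∃ m : ℕ, m ^ e = q := by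
  refine ⟨q.factorization.prod fun ℓ v => ℓ ^ (v / e), ?_⟩
  conv_rhs => rw [← Nat.prod_factorization_pow_eq_self hq]
  rw [Finsupp.prod, Finsupp.prod, ← Finset.prod_pow]
  refine Finset.prod_congr rfl fun ℓ _ => ?_
  rw [← pow_mul, Nat.div_mul_cancel (h ℓ)]

/-- A good open subgroup for the descent at `e` and level `N`. -/
structure GoodSet (e N : ℕ) (Z : Subgroup G_ℚ) : Prop where
  level : fullLevels.mem Z
  away : ∀ q : ℕ, q.Prime → q ≠ e → q ≠ N →
    ∃ A : ValuationSubring Ω, A.LiesOverPrime q ∧ A.inertiaSubgroupIn ℚ ≤ Z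
  bound : ∃ A : ValuationSubring Ω, IsOver A e ∧ Twist.Bound A e (Z ⊓ A.inertiaSubgroupIn ℚ)

variable {e N : ℕ} [Fact e.Prime]

/-- Inertia away from `e` is trivial on `μ_e`. -/
theorem cycloChar_inertia {A : ValuationSubring Ω} {q : ℕ} (hq : q.Prime)
    (hA : A.LiesOverPrime q) (hqe : q ≠ e) {σ : G_ℚ} (hσ : σ ∈ A.inertiaSubgroupIn ℚ) :
    cycloChar e σ = 1 :=
  cycloChar_eq_one (BigImage.inertia_root_of_unity hq hA hσ
    (fun h => hqe ((Nat.prime_dvd_prime_iff_eq hq Fact.out).1 h)) (zetaP_spec e).pow_eq_one)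

/-- Complex conjugation is `-1` on `μ_e`. -/
theorem cycloChar_complexConjugation : (cycloChar e complexConjugation : ZMod e) = -1 := by
  refine mu_injective (p := e) ?_
  rw [mu_neg, ← mul_one (cycloChar e complexConjugation : ZMod e), ← apply_mu]
  exact BigImage.involution_root_of_unity complexConjugation_mul_self
    BigImage.complexConjugation_ne_one (Fact.out : e.Prime).ne_zero (mu_pow 1)

/-- Complex conjugation fixes only non-negative squares in `ℤ`. -/
theorem nonneg_of_fixed {α : Ω} {n : ℤ} (hn : α ^ 2 = (n : Ω))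
    (hfix : complexConjugation α = α) : 0 ≤ n := by
  have h1 : starRingEnd ℂ (complexEmbedding α) = complexEmbedding α := by
    rw [← complexEmbedding_complexConjugation, hfix]
  obtain ⟨x, hx⟩ := Complex.conj_eq_iff_real.1 h1
  have h2 : complexEmbedding (α ^ 2) = (n : ℂ) := by rw [hn, map_intCast]
  rw [map_pow, hx] at h2
  have h3 : x ^ 2 = (n : ℝ) := by exact_mod_cast h2
  exact_mod_cast (h3 ▸ sq_nonneg x : (0 : ℝ) ≤ n)

/-- A cocycle for the cyclotomic character, trivial on a good set and at the local sides, is a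
coboundary. -/
theorem cyclo_coboundary {Z : Subgroup G_ℚ} (hZ : GoodSet e N Z) (hN : N.Prime) (hNe : N ≠ e)
    {AN : ValuationSubring Ω} (hAN : AN.LiesOverPrime N) (f : G_ℚ → ZMod e) (a b : ZMod e)
    (hf : ∀ σ τ, f (σ * τ) = f σ + (cycloChar e σ : ZMod e) * f τ)
    (hfZ : ∀ σ ∈ Z, f σ = 0)
    (hfN : ∀ σ ∈ AN.inertiaSubgroupIn ℚ, f σ + (cycloChar e σ : ZMod e) * a - a = 0)
    (hfc : f complexConjugation + (cycloChar e complexConjugation : ZMod e) * b - b = 0) :
    ∃ x, ∀ σ, f σ = (cycloChar e σ : ZMod e) * x - x := by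
  have he : e.Prime := Fact.out
  have hfN0 : ∀ σ ∈ AN.inertiaSubgroupIn ℚ, f σ = 0 := fun σ hσ => by
    have := hfN σ hσ
    rwa [cycloChar_inertia hN hAN hNe hσ, Units.val_one, one_mul, add_sub_cancel_right] at this
  obtain ⟨α, hα0, hα⟩ := hilbert90 (J := ⊤) hZ.level (a := fun σ => mu e (f σ))
    (fun σ _ => mu_ne_zero _)
    (fun σ _ τ _ => by
      show mu e (f (σ * τ)) = σ (mu e (f τ)) * mu e (f σ)
      rw [apply_mu, ← mu_add, hf, add_comm])
    (fun σ _ τ _ hτ => by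
      show mu e (f (σ * τ)) = mu e (f σ)
      rw [hf, hfZ τ hτ, mul_zero, add_zero])
  have hfix : ∀ σ : G_ℚ, f σ = 0 → σ α = α := fun σ h0 => by
    have h1 := hα σ trivial
    rw [h0, mu_zero, eq_comm, div_eq_one_iff_eq hα0] at h1
    exact h1
  obtain ⟨r, hr⟩ : ∃ r : ℚ, algebraMap ℚ Ω r = α ^ e := by
    refine (InfiniteGalois.mem_range_algebraMap_iff_fixed _).2 fun σ => ?_
    rw [map_pow, ← div_eq_one_iff_eq (pow_ne_zero _ hα0), ← div_pow, ← hα σ trivial, mu_pow]
  -- clear the denominator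
  set β₀ := α * (r.den : Ω) with hβ₀
  have hd0 : (r.den : Ω) ≠ 0 := Nat.cast_ne_zero.2 r.den_pos.ne'
  have hβ₀0 : β₀ ≠ 0 := mul_ne_zero hα0 hd0
  have hβfix : ∀ σ : G_ℚ, f σ = 0 → σ β₀ = β₀ := fun σ h0 => by
    rw [hβ₀, map_mul, hfix σ h0, map_natCast]
  set n : ℤ := r.num * (r.den : ℤ) ^ (e - 1) with hn
  have hβn : β₀ ^ e = (n : Ω) := by
    rw [hβ₀, mul_pow, ← hr, eq_ratCast, hn, Int.cast_mul, Int.cast_pow, Int.cast_natCast,
      Rat.cast_def, ← Nat.sub_add_cancel he.one_lt.le, pow_succ (r.den : Ω), Nat.add_sub_cancel]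
    field_simp
  have hn0 : n ≠ 0 := fun h0 => pow_ne_zero e hβ₀0 (by rw [hβn, h0, Int.cast_zero])
  -- the shape of `n`
  have hdvd : ∀ ℓ : ℕ, ℓ.Prime → ℓ ≠ e → e ∣ n.natAbs.factorization ℓ := fun ℓ hℓ hℓe => by
    by_cases hℓN : ℓ = N
    · subst hℓN
      exact dvd_factorization_of_fixed (A := AN) ⟨hℓ, hAN⟩ hβ₀0 hβn fun σ hσ =>
        hβfix σ (hfN0 σ hσ)
    · obtain ⟨A, hA, hle⟩ := hZ.away ℓ hℓ hℓe hℓN
      exact dvd_factorization_of_fixed (A := A) ⟨hℓ, hA⟩ hβ₀0 hβn fun σ hσ =>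
        hβfix σ (hfZ σ (hle hσ))
  have hna : n.natAbs ≠ 0 := Int.natAbs_ne_zero.2 hn0
  set i := n.natAbs.factorization e with hi
  obtain ⟨m, hm⟩ := exists_pow_eq_of_dvd_factorization (e := e)
    (q := n.natAbs / e ^ i) (Nat.ordCompl_pos e hna).ne' fun ℓ => by
      rw [hi, Nat.factorization_ordCompl]
      by_cases hℓe : ℓ = e
      · subst hℓe; simp
      · rw [Finsupp.erase_ne hℓe]
        by_cases hℓ : ℓ.Prime
        · exact hdvd ℓ hℓ hℓe
        · rw [Nat.factorization_eq_zero_of_not_prime _ hℓ]; exact dvd_zero _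
  have hprod : n.natAbs = e ^ i * m ^ e := by
    rw [hm, hi, Nat.ordProj_mul_ordCompl_eq_self]
  obtain ⟨t, ht⟩ : ∃ t : ℤ, n = (e : ℤ) ^ i * t ^ e := by
    rcases Int.natAbs_eq n with hs | hs
    · exact ⟨m, by rw [hs, hprod]; push_cast; rfl⟩
    · rcases he.eq_two_or_odd' with h2 | hodd
      · exfalso
        subst h2
        have hc : f complexConjugation = 0 := by
          have h := hfc
          rwa [cycloChar_complexConjugation, ZMod.neg_eq_self_mod_two, one_mul,
            add_sub_cancel_right] at h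
        have := nonneg_of_fixed hβn (hβfix _ hc)
        omega
      · exact ⟨-m, by rw [hs, hprod, hodd.neg_pow]; push_cast; ring⟩
  have ht0 : (t : Ω) ≠ 0 := by
    rw [Int.cast_ne_zero]
    intro h0
    exact hn0 (by rw [ht, h0, zero_pow he.ne_zero, mul_zero])
  set β := β₀ / (t : Ω) with hβ
  have hβ0 : β ≠ 0 := div_ne_zero hβ₀0 ht0
  have hβe : β ^ e = (e : Ω) ^ i := by
    rw [hβ, div_pow, hβn, ht]
    push_cast
    rw [mul_div_cancel_right₀ _ (pow_ne_zero _ ht0)]
  have hβσ : ∀ σ : G_ℚ, mu e (f σ) = σ β / β := fun σ => by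
    rw [hα σ trivial, hβ, hβ₀, map_div₀, map_mul, map_natCast, map_intCast]
    field_simp
  have he0 : (e : Ω) ≠ 0 := Nat.cast_ne_zero.2 he.ne_zero
  by_cases hei : e ∣ i
  · obtain ⟨j, hj⟩ := hei
    obtain ⟨x, hx⟩ := exists_mu_eq (p := e) (z := β / (e : Ω) ^ j) (by
      rw [div_pow, hβe, hj, ← pow_mul, mul_comm j e, div_self (pow_ne_zero _ he0)])
    refine ⟨x, fun σ => mu_injective (p := e) ?_⟩
    rw [hβσ, mu_sub, ← apply_mu, hx, map_div₀ σ β, map_pow, map_natCast]
    field_simp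
  · exfalso
    obtain ⟨A, hA, hB⟩ := hZ.bound
    set I := A.inertiaSubgroupIn ℚ
    have hgcd : Int.gcd (i : ℤ) (e : ℤ) = 1 := by
      rw [Int.gcd_natCast_natCast]
      exact Nat.Coprime.symm (he.coprime_iff_not_dvd.2 hei)
    have hbez : (1 : ℤ) = (i : ℤ) * Int.gcdA i e + (e : ℤ) * Int.gcdB i e := by
      rw [← Int.gcd_eq_gcd_ab, hgcd, Nat.cast_one]
    set π := β ^ Int.gcdA i e * (e : Ω) ^ Int.gcdB i e
    have hπ : π ^ e = (e : Ω) := by
      calc π ^ e = (β ^ Int.gcdA i e) ^ (e : ℤ) * ((e : Ω) ^ Int.gcdB i e) ^ (e : ℤ) := by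
            rw [zpow_natCast, zpow_natCast, ← mul_pow]
        _ = (e : Ω) ^ (1 : ℤ) := by
            rw [← zpow_mul, ← zpow_mul, mul_comm (Int.gcdA i e), zpow_mul, zpow_natCast, hβe,
              ← zpow_natCast, ← zpow_mul, ← zpow_add₀ he0, mul_comm (Int.gcdB i e), ← hbez]
        _ = (e : Ω) := zpow_one _
    have : Z.FiniteIndex := fullLevels.finiteIndex hZ.level
    have : ((Z ⊓ I).subgroupOf I).FiniteIndex := by
      rw [Subgroup.inf_subgroupOf_right]
      infer_instance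
    refine Twist.not_fixed_radical hA hB inf_le_right hπ fun σ hσ => ?_
    have h1 : σ β = β := by
      have h2 := hβσ σ
      rw [hfZ σ hσ.1, mu_zero, eq_comm, div_eq_one_iff_eq hβ0] at h2
      exact h2
    rw [map_mul, map_zpow₀, map_zpow₀, h1, map_natCast]

/-- A homomorphism trivial on a good set and on inertia at `N` is trivial, for odd `e`. -/
theorem hom_eq_zero {Z : Subgroup G_ℚ} (hZ : GoodSet e N Z) (he2 : e ≠ 2)
    {AN : ValuationSubring Ω} (hAN : AN.LiesOverPrime N) (f : G_ℚ → ZMod e)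
    (hf : ∀ σ τ, f (σ * τ) = f σ + f τ) (hfZ : ∀ σ ∈ Z, f σ = 0)
    (hfN : ∀ σ ∈ AN.inertiaSubgroupIn ℚ, f σ = 0) : ∀ σ, f σ = 0 := by
  let φ : G_ℚ →* Multiplicative (ZMod e) :=
    MonoidHom.mk' (fun σ => Multiplicative.ofAdd (f σ)) fun σ τ => by rw [hf, ofAdd_add]
  have hker : ∀ σ, σ ∈ φ.ker ↔ f σ = 0 := fun σ => by
    rw [MonoidHom.mem_ker]
    exact ofAdd_eq_one
  obtain ⟨F, hF, hFle⟩ := hZ.level
  have htop : φ.ker = ⊤ := by
    refine FreyReducible.subgroup_eq_top_of_inertia_le φ.ker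
      ⟨F, hF, fun σ hσ => (hker σ).2 (hfZ σ (hFle hσ))⟩ fun q hq => ?_
    by_cases hqN : q = N
    · exact ⟨AN, hqN ▸ hAN, fun σ hσ => (hker σ).2 (hfN σ hσ)⟩
    by_cases hqe : q = e
    · obtain ⟨A, hA, hB⟩ := hZ.bound
      have : Z.FiniteIndex := fullLevels.finiteIndex hZ.level
      have hfin : ((Z ⊓ A.inertiaSubgroupIn ℚ).subgroupOf (A.inertiaSubgroupIn ℚ)).FiniteIndex := by
        rw [Subgroup.inf_subgroupOf_right]
        infer_instance
      refine ⟨A, hqe ▸ hA.liesOver, fun σ hσ => (hker σ).2 ?_⟩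
      exact Twist.hom_eq_zero_on_inertia hA he2 hB hfin f hf F
        (fun τ hτ => hfZ τ (hFle ((IntermediateField.mem_fixingSubgroup_iff _ _).2 hτ)))
        (fun τ hτ => hfZ τ hτ.1) σ hσ
    obtain ⟨A, hA, hle⟩ := hZ.away q hq hqe hqN
    exact ⟨A, hA, fun σ hσ => (hker σ).2 (hfZ σ (hle hσ))⟩
  exact fun σ => (hker σ).1 (htop ▸ Subgroup.mem_top σ)

/-- The local data of the descent on `G_ℚ`. -/
def localDataQ (e : ℕ) (AN : ValuationSubring Ω) (Z : Subgroup G_ℚ) : LocalData G_ℚ e where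
  HN := AN.inertiaSubgroupIn ℚ
  Hinf := {complexConjugation}
  Z := Z

theorem admissible_cyclo {Z : Subgroup G_ℚ} (hZ : GoodSet e N Z) (hN : N.Prime) (hNe : N ≠ e)
    {AN : ValuationSubring Ω} (hAN : AN.LiesOverPrime N) :
    (localDataQ e AN Z).AdmissibleChar fun σ => (cycloChar e σ : ZMod e) := by
  refine ⟨fun f a b hf hfZ hfN hfc =>
    cyclo_coboundary hZ hN hNe hAN f a b hf hfZ hfN (hfc _ (Set.mem_singleton _)), ?_⟩
  rcases eq_or_ne e 2 with h2 | h2
  · subst h2
    refine Or.inl fun σ => ?_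
    show ((cycloChar 2 σ : (ZMod 2)ˣ) : ZMod 2) = 1
    rw [Subsingleton.elim (cycloChar 2 σ) 1, Units.val_one]
  · refine Or.inr ⟨complexConjugation, Set.mem_singleton _, ?_⟩
    simp only [cycloChar_complexConjugation]
    refine isUnit_iff_ne_zero.2 fun h0 => h2 ?_
    have h3 : ((2 : ℕ) : ZMod e) = 0 := by push_cast; linear_combination -h0
    exact (Nat.prime_dvd_prime_iff_eq Fact.out Nat.prime_two).1
      ((ZMod.natCast_eq_zero_iff _ _).1 h3)

theorem admissible_one {Z : Subgroup G_ℚ} (hZ : GoodSet e N Z) (hN : N.Prime) (hNe : N ≠ e)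
    {AN : ValuationSubring Ω} (hAN : AN.LiesOverPrime N) :
    (localDataQ e AN Z).AdmissibleChar fun _ => 1 := by
  rcases eq_or_ne e 2 with h2 | h2
  · subst h2
    have h1 : (fun _ : G_ℚ => (1 : ZMod 2)) = fun σ => (cycloChar 2 σ : ZMod 2) :=
      funext fun σ => by rw [Subsingleton.elim (cycloChar 2 σ) 1, Units.val_one]
    rw [h1]
    exact admissible_cyclo hZ hN hNe hAN
  refine ⟨fun f a b hf hfZ hfN _ => ⟨0, fun σ => ?_⟩, Or.inl fun _ => rfl⟩
  rw [mul_zero, sub_zero]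
  refine hom_eq_zero hZ h2 hAN f (fun σ τ => by simpa using hf σ τ) hfZ (fun τ hτ => ?_) σ
  simpa using hfN τ hτ

end Fermat.Agent.Mazur
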